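/-
P-S16, STEP 1 glue (helper19), analytic part (R1).

`IsMF N k f`: the function `f : ℍ → ℂ` is holomorphic, weight-`k` invariant under `Γ₀(N)` and
bounded at all cusps (every modular form of level `Γ₀(N)` or of level one is such a function).

`exists_FC_of_ratio`: the quotient of two such functions of the same weight is an element of the
function field `FC N` of `X₀(N)` over `ℂ`, and its `q`-expansion is the quotient of the
`q`-expansions.  This is a consumer of WP-DICT (`RangeC.mem_range_embC_iff`, `QExpMer.HasQ`).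
-/
import Fermat.Agent.Gateway.Dict.RangeC
import Fermat.Agent.Gateway.Dict.QExpMer

set_option autoImplicit false

noncomputable section

open UpperHalfPlane CongruenceSubgroup ModularForm Matrix.SpecialLinearGroup
open scoped MatrixGroups Manifold

namespace Fermat.Agent.S16.RatioForms

open Fermat.Agent.S24 Fermat.Agent.S24.MerFun Fermat.Agent.S24.CuspOrd
open Fermat.Agent.Gateway.Dict Fermat.Agent.Gateway.Dict.SetupC Fermat.Agent.Gateway.Dict.EmbedC
open Fermat.Agent.Gateway.Dict.QExpMer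

/-- `f` is holomorphic, weight-`k` invariant under `Γ₀(N)` and bounded at all cusps. -/
structure IsMF (N : ℕ) (k : ℤ) (f : ℍ → ℂ) : Prop where
  mdiff : MDiff f
  slash_eq : ∀ γ ∈ Gamma0 N, f ∣[k] γ = f
  bdd : ∀ g : SL(2, ℤ), IsBoundedAtImInfty (f ∣[k] g)

/-- Modular forms for an arithmetic group containing `Γ₀(N)` satisfy `IsMF N k`. -/
theorem isMF_of_class {F : Type*} [FunLike F ℍ ℂ] {Γ : Subgroup (GL (Fin 2) ℝ)} [Γ.IsArithmetic]
    {N : ℕ} {k : ℤ} (hΓ : ∀ γ ∈ Gamma0 N, (mapGL ℝ γ : GL (Fin 2) ℝ) ∈ Γ)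
    [ModularFormClass F Γ k] (f : F) : IsMF N k (f : ℍ → ℂ) where
  mdiff := ModularFormClass.holo f
  slash_eq γ hγ := by
    rw [SL_slash]
    exact SlashInvariantForm.slash_action_eqn f _ (hΓ γ hγ)
  bdd g := ModularFormClass.bdd_at_infty_slash f g

theorem isMF_of_modularForm {N : ℕ} [NeZero N] {k : ℤ} (f : ModularForm (Gamma0 N) k) :
    IsMF N k (f : ℍ → ℂ) :=
  isMF_of_class (fun γ hγ => Subgroup.mem_map_of_mem _ hγ) f

theorem isMF_of_levelOne (N : ℕ) {k : ℤ} (f : ModularForm 𝒮ℒ k) : IsMF N k (f : ℍ → ℂ) :=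
  isMF_of_class (fun γ _ => MonoidHom.mem_range.mpr ⟨γ, rfl⟩) f

variable {N : ℕ} {k k' : ℤ} {f g : ℍ → ℂ}

theorem IsMF.mul (hf : IsMF N k f) (hg : IsMF N k' g) : IsMF N (k + k') (f * g) where
  mdiff := hf.mdiff.mul hg.mdiff
  slash_eq γ hγ := by rw [mul_slash_SL2, hf.slash_eq γ hγ, hg.slash_eq γ hγ]
  bdd γ := by
    rw [mul_slash_SL2]
    exact (hf.bdd γ).mul (hg.bdd γ)

theorem IsMF.add (hf : IsMF N k f) (hg : IsMF N k g) : IsMF N k (f + g) where
  mdiff := hf.mdiff.add hg.mdiff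
  slash_eq γ hγ := by rw [SlashAction.add_slash, hf.slash_eq γ hγ, hg.slash_eq γ hγ]
  bdd γ := by
    rw [SlashAction.add_slash]
    exact (hf.bdd γ).add (hg.bdd γ)

theorem IsMF.const_smul (c : ℂ) (hf : IsMF N k f) : IsMF N k (c • f) where
  mdiff := hf.mdiff.const_smul c
  slash_eq γ hγ := by rw [SL_smul_slash, hf.slash_eq γ hγ]
  bdd γ := by
    rw [SL_smul_slash]
    exact (hf.bdd γ).const_smul_left c

theorem IsMF.neg (hf : IsMF N k f) : IsMF N k (-f) := by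
  have := hf.const_smul (-1)
  rwa [neg_one_smul] at this

theorem IsMF.sub (hf : IsMF N k f) (hg : IsMF N k g) : IsMF N k (f - g) := by
  rw [sub_eq_add_neg]
  exact hf.add hg.neg

theorem IsMF.pow (hf : IsMF N k f) (n : ℕ) : IsMF N (n * k) (f ^ n) := by
  induction n with
  | zero =>
    rw [pow_zero, Nat.cast_zero, zero_mul]
    exact ⟨mdifferentiable_const, fun γ _ => is_invariant_one γ,
      fun γ => by rw [is_invariant_one]; exact Filter.const_boundedAtFilter _ (1 : ℂ)⟩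
  | succ n ih =>
    have h := ih.mul hf
    have e : ((n + 1 : ℕ) : ℤ) * k = (n : ℤ) * k + k := by push_cast; ring
    rw [pow_succ, e]
    exact h

theorem IsMF.slash_mul_of_mem (hf : IsMF N k f) {γ : SL(2, ℤ)} (hγ : γ ∈ Gamma0 N)
    (g : SL(2, ℤ)) : f ∣[k] (γ * g) = f ∣[k] g := by
  rw [SlashAction.slash_mul, hf.slash_eq γ hγ]

/-- The translate `f ∣[k] g` as a holomorphic function. -/
def IsMF.hol (hf : IsMF N k f) (g : SL(2, ℤ)) : HolFun :=
  ⟨f ∣[k] g, by rw [SL_slash]; exact hf.mdiff.slash k _⟩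

theorem IsMF.hol_apply (hf : IsMF N k f) (g : SL(2, ℤ)) :
    ((hf.hol g : HolFun) : ℍ → ℂ) = f ∣[k] g := rfl

theorem IsMF.hol_one (hf : IsMF N k f) : ((hf.hol 1 : HolFun) : ℍ → ℂ) = f := by
  rw [hf.hol_apply, SlashAction.slash_one]

theorem IsMF.hol_ne_zero (hf : IsMF N k f) (hf0 : f ≠ 0) (g : SL(2, ℤ)) : hf.hol g ≠ 0 := by
  intro h
  have h1 : f ∣[k] g = 0 := congrArg Subtype.val h
  exact hf0 ((SlashAction.slash_eq_zero_iff k g f).mp h1)

theorem IsMF.isPer_slash (hf : IsMF N k f) (g : SL(2, ℤ)) : IsPer N (f ∣[k] g) := by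
  intro z
  have hmem : g * ModularGroup.T ^ (N : ℤ) * g⁻¹ ∈ Gamma0 N := by
    have := JD.conj_T_pow_mem_Gamma0 N g⁻¹
    rwa [inv_inv] at this
  have h1 : f ∣[k] (g * ModularGroup.T ^ (N : ℤ)) = f ∣[k] g := by
    have e : g * ModularGroup.T ^ (N : ℤ) = (g * ModularGroup.T ^ (N : ℤ) * g⁻¹) * g := by group
    rw [e, hf.slash_mul_of_mem hmem]
  have h2 := congrFun h1 z
  rw [SlashAction.slash_mul, SL_slash_apply, ← JD.natCast_vadd_eq_T_zpow_smul] at h2
  have hden : denom (ModularGroup.T ^ (N : ℤ) : SL(2, ℤ)) z = 1 := by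
    rw [ModularGroup.denom_apply, ModularGroup.coe_T_zpow]
    simp
  rw [hden, one_zpow, mul_one] at h2
  exact h2

theorem IsMF.isCuspFn_slash (hf : IsMF N k f) (g : SL(2, ℤ)) : IsCuspFn N (f ∣[k] g) where
  mdiff := (hf.hol g).2
  isPer := hf.isPer_slash g
  growth := ⟨0, by
    have := hf.bdd g
    simpa using this⟩

theorem IsMF.hol_mem_cuspFnAlg (hf : IsMF N k f) (g : SL(2, ℤ)) : hf.hol g ∈ cuspFnAlg N :=
  hf.isCuspFn_slash g

/-- Translating the quotient: the automorphy factors cancel. -/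
theorem IsMF.smul_hol_mul (hf : IsMF N k f) (hg : IsMF N k g) (γ : SL(2, ℤ)) :
    (γ • hf.hol 1) * hg.hol γ⁻¹ = (γ • hg.hol 1) * hf.hol γ⁻¹ := by
  ext τ
  rw [HolFun.coe_mul_apply, HolFun.coe_mul_apply, HolFun.sl_smul_apply, HolFun.sl_smul_apply,
    hf.hol_one, hg.hol_one, hf.hol_apply, hg.hol_apply, SL_slash_apply, SL_slash_apply]
  ring

/-- The quotient `f / g` as an element of `MerFun`. -/
def IsMF.ratio (hf : IsMF N k f) (hg : IsMF N k g) : MerFun :=
  algebraMap HolFun MerFun (hf.hol 1) / algebraMap HolFun MerFun (hg.hol 1)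

theorem IsMF.smul_ratio (hf : IsMF N k f) (hg : IsMF N k g) (hg0 : g ≠ 0) (γ : SL(2, ℤ)) :
    γ • hf.ratio hg =
      algebraMap HolFun MerFun (hf.hol γ⁻¹) / algebraMap HolFun MerFun (hg.hol γ⁻¹) := by
  have h1 : algebraMap HolFun MerFun (hg.hol γ⁻¹) ≠ 0 := algebraMap_ne_zero (hg.hol_ne_zero hg0 _)
  have h2 : algebraMap HolFun MerFun (γ • hg.hol 1) ≠ 0 := by
    rw [← sl_smul_algebraMap]
    intro h
    have h3 : algebraMap HolFun MerFun (hg.hol 1) = 0 := by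
      have := congrArg (fun x => γ⁻¹ • x) h
      simpa using this
    exact algebraMap_ne_zero (hg.hol_ne_zero hg0 _) h3
  rw [IsMF.ratio, div_eq_mul_inv, smul_mul', smul_inv'', ← div_eq_mul_inv, sl_smul_algebraMap,
    sl_smul_algebraMap, div_eq_div_iff h2 h1, ← map_mul, ← map_mul, hf.smul_hol_mul hg γ, mul_comm]

theorem IsMF.hol_of_mem (hf : IsMF N k f) {γ : SL(2, ℤ)} (hγ : γ ∈ Gamma0 N) :
    hf.hol γ = hf.hol 1 := by
  apply Subtype.ext
  rw [hf.hol_apply, hf.hol_apply, hf.slash_eq γ hγ, SlashAction.slash_one]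

theorem IsMF.smul_ratio_of_mem (hf : IsMF N k f) (hg : IsMF N k g) (hg0 : g ≠ 0) {γ : SL(2, ℤ)}
    (hγ : γ ∈ Gamma0 N) : γ • hf.ratio hg = hf.ratio hg := by
  rw [hf.smul_ratio hg hg0, hf.hol_of_mem (inv_mem hγ), hg.hol_of_mem (inv_mem hγ), IsMF.ratio]

theorem IsMF.isCuspMer_smul_ratio (hf : IsMF N k f) (hg : IsMF N k g) (hg0 : g ≠ 0)
    (γ : SL(2, ℤ)) : IsCuspMer N (γ • hf.ratio hg) :=
  ⟨hf.hol γ⁻¹, hg.hol γ⁻¹, hf.hol_mem_cuspFnAlg _, hg.hol_mem_cuspFnAlg _,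
    hg.hol_ne_zero hg0 _, hf.smul_ratio hg hg0 γ⟩

theorem T_mem_Gamma0 (N : ℕ) : ModularGroup.T ∈ Gamma0 N := by
  rw [Gamma0_mem]
  simp [ModularGroup.T]

theorem IsMF.isPer_one (hf : IsMF N k f) : QExp.IsPer 1 f := by
  intro z
  have h2 := congrFun (hf.slash_eq _ (T_mem_Gamma0 N)) z
  rw [SL_slash_apply] at h2
  have hden : denom (ModularGroup.T : SL(2, ℤ)) z = 1 := by
    rw [ModularGroup.denom_apply]
    simp [ModularGroup.T]
  rw [hden, one_zpow, mul_one, UpperHalfPlane.modular_T_smul] at h2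
  exact h2

theorem IsMF.bdd_self (hf : IsMF N k f) : IsBoundedAtImInfty f := by
  have := hf.bdd 1
  rwa [SlashAction.slash_one] at this

/-- `f` is holomorphic, `1`-periodic and bounded at `i∞`; gives `qExpansion_mul`, `_add`, `_pow`
(`Fermat.Agent.S24.QExp.Nice.qExpansion_mul` etc.). -/
theorem IsMF.nice (hf : IsMF N k f) : QExp.Nice f := ⟨hf.mdiff, hf.isPer_one, hf.bdd_self⟩

/-- `f` as an element of `PerFun`. -/
def IsMF.per (hf : IsMF N k f) : QExp.PerFun :=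
  QExp.PerFun.mk f hf.mdiff hf.isPer_one (QExp.modGrowth_iff.mpr ⟨0, QExp.qBdd_zero_iff.mpr hf.bdd_self⟩)

theorem IsMF.coe_per (hf : IsMF N k f) : ((hf.per : QExp.PerFun) : HolFun) = hf.hol 1 := by
  apply Subtype.ext
  rw [hf.hol_one]
  rfl

theorem IsMF.qLaurent_per (hf : IsMF N k f) :
    QExp.qLaurent hf.per = HahnSeries.ofPowerSeries ℤ ℂ (qExpansion 1 f) :=
  QExp.qLaurent_of_bdd hf.per hf.bdd_self

theorem IsMF.per_ne_zero (hf : IsMF N k f) (hf0 : f ≠ 0) : hf.per ≠ 0 := by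
  intro h
  have h1 : ((hf.per : QExp.PerFun) : HolFun) = 0 := by rw [h]; rfl
  rw [hf.coe_per] at h1
  exact hf.hol_ne_zero hf0 1 h1

/-- **(R1)** The quotient of two modular forms of the same weight for `Γ₀(N)` lies in the function
field of `X₀(N)` over `ℂ`; its `q`-expansion is the quotient of the `q`-expansions. -/
theorem exists_FC_of_ratio [NeZero N] (hf : IsMF N k f) (hg : IsMF N k g) (hg0 : g ≠ 0) :
    ∃ φ : FC N, (φ : LaurentSeries ℂ) * HahnSeries.ofPowerSeries ℤ ℂ (qExpansion 1 g)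
      = HahnSeries.ofPowerSeries ℤ ℂ (qExpansion 1 f) := by
  obtain ⟨φ, hφ⟩ := (RangeC.mem_range_embC_iff N (hf.ratio hg)).mpr
    ⟨fun γ hγ => hf.smul_ratio_of_mem hg hg0 hγ, fun γ => hf.isCuspMer_smul_ratio hg hg0 γ⟩
  refine ⟨φ, ?_⟩
  have h1 : HasQ (hf.ratio hg) (φ : LaurentSeries ℂ) := by
    have := hasQ_embC N φ
    rwa [hφ] at this
  have hb0 : QExp.qLaurent hg.per ≠ 0 := qLaurent_ne_zero (hg.per_ne_zero hg0)
  have h2 : HasQ (hf.ratio hg) (QExp.qLaurent hf.per / QExp.qLaurent hg.per) :=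
    ⟨hf.per, hg.per, hg.per_ne_zero hg0, by rw [hf.coe_per, hg.coe_per, IsMF.ratio],
      div_mul_cancel₀ _ hb0⟩
  rw [h1.unique h2, ← hf.qLaurent_per, ← hg.qLaurent_per, div_mul_cancel₀ _ hb0]

end Fermat.Agent.S16.RatioForms
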