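/-
P-S16, STEP 1 glue (helper19), descent part (R2).  Pure algebra over Mathlib + the Prelude
definitions `coeffEmb`, `laurentBaseChange`.

`mem_of_coeffEmb_mem`: a Laurent series with rational coefficients whose image in `L((q))` lies in
the base change `laurentBaseChange L F₀` of a subfield `F₀ ⊆ ℚ((q))` already lies in `F₀`.
-/
import Fermat.Prelude.Def_ModularCurve_LaurentCoeff
import Mathlib

set_option autoImplicit false

noncomputable section

open ModularCurve HahnSeries

namespace Fermat.Agent.S16.RatioForms.Descent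

variable {L : Type*} [Field L] [Algebra ℚ L]

/-- Apply a `ℚ`-linear functional to every coefficient. -/
def lam (φ : L →ₗ[ℚ] ℚ) (z : LaurentSeries L) : LaurentSeries ℚ := z.map φ

theorem lam_coeff (φ : L →ₗ[ℚ] ℚ) (z : LaurentSeries L) (n : ℤ) :
    (lam φ z).coeff n = φ (z.coeff n) := rfl

theorem lam_zero (φ : L →ₗ[ℚ] ℚ) : lam φ 0 = 0 := by
  ext n
  rw [lam_coeff, coeff_zero, coeff_zero, map_zero]

theorem lam_add (φ : L →ₗ[ℚ] ℚ) (z w : LaurentSeries L) : lam φ (z + w) = lam φ z + lam φ w := by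
  ext n
  rw [lam_coeff, coeff_add, coeff_add, lam_coeff, lam_coeff, map_add]

theorem lam_algebraMap_mul (φ : L →ₗ[ℚ] ℚ) (c : L) (z : LaurentSeries L) :
    lam φ (algebraMap L (LaurentSeries L) c * z) = lam (φ.comp (LinearMap.mulLeft ℚ c)) z := by
  rw [algebraMap_laurentSeries_eq_single]
  ext n
  rw [lam_coeff, lam_coeff, coeff_single_zero_mul]
  rfl

theorem lam_one (φ : L →ₗ[ℚ] ℚ) : lam φ 1 = algebraMap ℚ (LaurentSeries ℚ) (φ 1) := by
  rw [algebraMap_laurentSeries_eq_single]
  ext n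
  rw [lam_coeff, coeff_one]
  by_cases hn : n = 0
  · subst hn
    rw [if_pos rfl, coeff_single_same]
  · rw [if_neg hn, coeff_single_of_ne hn, map_zero]

theorem support_coeffEmb_subset (y : LaurentSeries ℚ) :
    (coeffEmb L y).support ⊆ y.support := by
  intro n hn
  rw [HahnSeries.mem_support] at hn ⊢
  intro h
  apply hn
  rw [coeffEmb_coeff, h, map_zero]

theorem support_lam_subset (φ : L →ₗ[ℚ] ℚ) (z : LaurentSeries L) :
    (lam φ z).support ⊆ z.support := by
  intro n hn
  rw [HahnSeries.mem_support] at hn ⊢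
  intro h
  apply hn
  rw [lam_coeff, h, map_zero]

/-- Semilinearity of `lam` over `ℚ((q))`. -/
theorem lam_coeffEmb_mul (φ : L →ₗ[ℚ] ℚ) (y : LaurentSeries ℚ) (z : LaurentSeries L) :
    lam φ (coeffEmb L y * z) = y * lam φ z := by
  ext n
  rw [lam_coeff, coeff_mul_left' y.isPWO_support (support_coeffEmb_subset y),
    coeff_mul_right' z.isPWO_support (support_lam_subset φ z), map_sum]
  refine Finset.sum_congr rfl fun ij _ => ?_
  rw [coeffEmb_coeff, lam_coeff, ← Algebra.smul_def, map_smul, smul_eq_mul]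

theorem lam_coeffEmb (φ : L →ₗ[ℚ] ℚ) (y : LaurentSeries ℚ) :
    lam φ (coeffEmb L y) = y * algebraMap ℚ (LaurentSeries ℚ) (φ 1) := by
  have := lam_coeffEmb_mul φ y 1
  rwa [mul_one, lam_one] at this

/-- Functionals map the `L`-algebra generated by `F₀` into `F₀`. -/
theorem lam_mem_of_mem_adjoin (F₀ : IntermediateField ℚ (LaurentSeries ℚ)) {z : LaurentSeries L}
    (hz : z ∈ Algebra.adjoin L (⇑(coeffEmb L) '' (F₀ : Set (LaurentSeries ℚ))))
    (φ : L →ₗ[ℚ] ℚ) : lam φ z ∈ F₀ := by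
  have hz' : z ∈ Subalgebra.toSubmodule
      (Algebra.adjoin L (⇑(coeffEmb L) '' (F₀ : Set (LaurentSeries ℚ)))) := hz
  rw [Algebra.adjoin_eq_span] at hz'
  clear hz
  revert φ
  induction hz' using Submodule.span_induction with
  | mem w hw =>
    intro φ
    have hw' : ∃ a ∈ F₀, w = coeffEmb L a := by
      induction hw using Submonoid.closure_induction with
      | mem w hw =>
        obtain ⟨a, ha, rfl⟩ := hw
        exact ⟨a, ha, rfl⟩
      | one => exact ⟨1, one_mem _, (map_one _).symm⟩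
      | mul w₁ w₂ _ _ h₁ h₂ =>
        obtain ⟨a₁, ha₁, rfl⟩ := h₁
        obtain ⟨a₂, ha₂, rfl⟩ := h₂
        exact ⟨a₁ * a₂, mul_mem ha₁ ha₂, (map_mul _ _ _).symm⟩
    obtain ⟨a, ha, rfl⟩ := hw'
    rw [lam_coeffEmb]
    exact mul_mem ha (F₀.algebraMap_mem _)
  | zero =>
    intro φ
    rw [lam_zero]
    exact zero_mem _
  | add w₁ w₂ _ _ h₁ h₂ =>
    intro φ
    rw [lam_add]
    exact add_mem (h₁ φ) (h₂ φ)
  | smul c w _ h =>
    intro φ
    rw [Algebra.smul_def, lam_algebraMap_mul]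
    exact h _

/-- **(R2) Descent.** -/
theorem mem_of_coeffEmb_mem (F₀ : IntermediateField ℚ (LaurentSeries ℚ)) {x : LaurentSeries ℚ}
    (hx : coeffEmb L x ∈ laurentBaseChange L F₀) : x ∈ F₀ := by
  rw [laurentBaseChange, IntermediateField.mem_adjoin_iff_div] at hx
  obtain ⟨s, hs, t, ht, hst⟩ := hx
  by_cases ht0 : t = 0
  · rw [ht0, div_zero] at hst
    have hx0 : x = 0 := by
      ext n
      have h := congrArg (fun w => w.coeff n) hst
      simp only [coeffEmb_coeff, coeff_zero] at h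
      rw [coeff_zero]
      exact (map_eq_zero (algebraMap ℚ L)).mp h
    rw [hx0]
    exact zero_mem _
  obtain ⟨n, hn⟩ : ∃ n, t.coeff n ≠ 0 := by
    by_contra h
    push Not at h
    exact ht0 (HahnSeries.ext (funext h))
  obtain ⟨φ, hφ⟩ : ∃ φ : L →ₗ[ℚ] ℚ, φ (t.coeff n) ≠ 0 := by
    by_contra h
    push Not at h
    exact hn ((Module.forall_dual_apply_eq_zero_iff ℚ _).mp h)
  have h1 : coeffEmb L x * t = s := by rw [hst, div_mul_cancel₀ _ ht0]
  have h2 : x * lam φ t = lam φ s := by rw [← lam_coeffEmb_mul, h1]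
  have h3 : lam φ t ≠ 0 := by
    intro h
    apply hφ
    have := congrArg (fun w => w.coeff n) h
    simpa [lam_coeff] using this
  have h4 : x = lam φ s / lam φ t := by rw [← h2, mul_div_cancel_right₀ _ h3]
  rw [h4]
  exact div_mem (lam_mem_of_mem_adjoin F₀ hs φ) (lam_mem_of_mem_adjoin F₀ ht φ)

end Fermat.Agent.S16.RatioForms.Descent
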