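/-
P-S16, STEP 1 glue (helper19), parts (R1)+(R2) combined and (R3) (Gauss valuation / reduction).

* `ratio_mem_full`: the quotient of the rational `q`-expansions of two modular forms of the same
  weight for `Γ₀(N)` lies in `modularFunctionFieldFull N ⊆ ℚ((q))`;
* `ratio_mem_FBar`: hence its image lies in `GoodRed.FBar L N` for every field `L ⊇ ℚ`;
* `red_ratio_mem_fullC`: if the `q`-expansions are `A`-integral (`A` a valuation subring of `L` with
  residue map `π : A → k`, `k` algebraically closed of characteristic `ℓ ∤ N`) and the denominator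
  is nonzero mod `π`, the quotient of the reductions lies in `modularFunctionFieldFullC k N`;
* `redSeries_ratio_mem_fullC`: the same for `ℓ`-integral rational `q`-expansions, with the explicit
  reduction `redSeries k`.
-/
import Fermat.Agent.S16.RatioForms.Analytic
import Fermat.Agent.S16.RatioForms.Descent
import Fermat.Agent.Gateway.GoodRed.GaussBar

set_option autoImplicit false
set_option linter.unusedSectionVars false

noncomputable section

open UpperHalfPlane ModularCurve

namespace Fermat.Agent.S16.RatioForms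

open Fermat.Agent.Gateway.Red Fermat.Agent.Gateway.GoodRed Fermat.Agent.Gateway.Dict.SetupC

theorem ofPowerSeries_ne_zero {R : Type*} [CommRing R] {p : PowerSeries R} (hp : p ≠ 0) :
    HahnSeries.ofPowerSeries ℤ R p ≠ 0 := fun h =>
  hp (HahnSeries.ofPowerSeries_injective (by rw [h, map_zero]))

theorem map_ne_zero_of_injective {R S : Type*} [CommRing R] [CommRing S] (φ : R →+* S)
    (hφ : Function.Injective φ) {p : PowerSeries R} (hp : p ≠ 0) : p.map φ ≠ 0 := by
  intro h
  apply hp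
  ext n
  have := congrArg (PowerSeries.coeff n) h
  rw [PowerSeries.coeff_map, map_zero] at this
  rw [map_zero]
  exact (map_eq_zero_iff φ hφ).mp this

variable {N : ℕ} [NeZero N] {wt : ℤ} {f g : ℍ → ℂ}

/-- **(R1)+(R2)** -/
theorem ratio_mem_full (hf : IsMF N wt f) (hg : IsMF N wt g) (qf qg : PowerSeries ℚ)
    (hqf : qExpansion 1 f = qf.map (algebraMap ℚ ℂ))
    (hqg : qExpansion 1 g = qg.map (algebraMap ℚ ℂ)) (hg0 : qg ≠ 0) :
    HahnSeries.ofPowerSeries ℤ ℚ qf / HahnSeries.ofPowerSeries ℤ ℚ qg ∈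
      modularFunctionFieldFull N := by
  have hqg0 : qExpansion 1 g ≠ 0 := by
    rw [hqg]
    exact map_ne_zero_of_injective _ (algebraMap ℚ ℂ).injective hg0
  have hgne : g ≠ 0 := by
    rintro rfl
    exact hqg0 ((hg.nice.qExpansion_eq_zero_iff).mpr rfl)
  obtain ⟨φ, hφ⟩ := exists_FC_of_ratio hf hg hgne
  apply Descent.mem_of_coeffEmb_mem (L := ℂ)
  have hne : HahnSeries.ofPowerSeries ℤ ℂ (qExpansion 1 g) ≠ 0 := ofPowerSeries_ne_zero hqg0
  have : coeffEmb ℂ (HahnSeries.ofPowerSeries ℤ ℚ qf / HahnSeries.ofPowerSeries ℤ ℚ qg) =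
      (φ : LaurentSeries ℂ) := by
    rw [map_div₀, coeffEmb, coeffMap_ofPowerSeries, coeffMap_ofPowerSeries, ← hqf, ← hqg, ← hφ,
      mul_div_cancel_right₀ _ hne]
  rw [this]
  exact φ.2

theorem ratio_mem_FBar (L : Type*) [Field L] [Algebra ℚ L] (hf : IsMF N wt f) (hg : IsMF N wt g)
    (qf qg : PowerSeries ℚ) (hqf : qExpansion 1 f = qf.map (algebraMap ℚ ℂ))
    (hqg : qExpansion 1 g = qg.map (algebraMap ℚ ℂ)) (hg0 : qg ≠ 0) :
    coeffEmb L (HahnSeries.ofPowerSeries ℤ ℚ qf / HahnSeries.ofPowerSeries ℤ ℚ qg) ∈ FBar L N :=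
  coeffEmb_mem_laurentBaseChange L (ratio_mem_full hf hg qf qg hqf hqg hg0)

section Gauss

variable {L : Type*} [Field L] [Algebra ℚ L] (A : ValuationSubring L) {k : Type} [Field k]
  (π : A →+* k) (hπ : Function.Surjective π) [IsAlgClosed k] (ℓ : ℕ) [Fact ℓ.Prime] [CharP k ℓ]

include hπ in
/-- **(R3)** -/
theorem red_ratio_mem_fullC (hℓN : ¬ ℓ ∣ N) (hf : IsMF N wt f) (hg : IsMF N wt g)
    (qf qg : PowerSeries ℚ) (hqf : qExpansion 1 f = qf.map (algebraMap ℚ ℂ))
    (hqg : qExpansion 1 g = qg.map (algebraMap ℚ ℂ))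
    (a b : PowerSeries A) (ha : a.map A.subtype = qf.map (algebraMap ℚ L))
    (hb : b.map A.subtype = qg.map (algebraMap ℚ L)) (hb0 : b.map π ≠ 0) :
    HahnSeries.ofPowerSeries ℤ k (a.map π) / HahnSeries.ofPowerSeries ℤ k (b.map π) ∈
      modularFunctionFieldFullC k N := by
  have hqg0 : qg ≠ 0 := by
    rintro rfl
    apply hb0
    rw [map_zero] at hb
    have hb' : b = 0 := by
      by_contra hne
      exact map_ne_zero_of_injective _ A.subtype_injective hne hb
    rw [hb', map_zero]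
  set x : LaurentSeries ℚ :=
    HahnSeries.ofPowerSeries ℤ ℚ qf / HahnSeries.ofPowerSeries ℤ ℚ qg with hx
  have hy : coeffEmb L x ∈ FBar L N := ratio_mem_FBar L hf hg qf qg hqf hqg hqg0
  have e1 : embA A (HahnSeries.ofPowerSeries ℤ A b) =
      coeffEmb L (HahnSeries.ofPowerSeries ℤ ℚ qg) := by
    rw [embA, coeffMap_ofPowerSeries, hb, coeffEmb, coeffMap_ofPowerSeries]
  have e2 : embA A (HahnSeries.ofPowerSeries ℤ A a) =
      coeffEmb L (HahnSeries.ofPowerSeries ℤ ℚ qf) := by
    rw [embA, coeffMap_ofPowerSeries, ha, coeffEmb, coeffMap_ofPowerSeries]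
  have hrel : coeffEmb L x * embA A (HahnSeries.ofPowerSeries ℤ A b) =
      embA A (HahnSeries.ofPowerSeries ℤ A a) := by
    rw [e1, e2, ← map_mul, hx, div_mul_cancel₀ _ (ofPowerSeries_ne_zero hqg0)]
  have e3 : redA A π (HahnSeries.ofPowerSeries ℤ A b) =
      HahnSeries.ofPowerSeries ℤ k (b.map π) := by
    rw [redA, coeffMap_ofPowerSeries]
  have e4 : redA A π (HahnSeries.ofPowerSeries ℤ A a) =
      HahnSeries.ofPowerSeries ℤ k (a.map π) := by
    rw [redA, coeffMap_ofPowerSeries]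
  have hredb : redA A π (HahnSeries.ofPowerSeries ℤ A b) ≠ 0 := by
    rw [e3]
    exact ofPowerSeries_ne_zero hb0
  have hmem : coeffEmb L x ∈ gaussRing A π := ⟨_, _, hredb, hrel⟩
  let F : Ov A π (FBar L N) := ⟨⟨coeffEmb L x, hy⟩, hmem⟩
  have h1 : redV A π (FBar L N) F * redA A π (HahnSeries.ofPowerSeries ℤ A b) =
      redA A π (HahnSeries.ofPowerSeries ℤ A a) := redV_spec A π (FBar L N) F hredb hrel
  have h2 := redV_mem_Fk A π N ℓ hπ hℓN F
  have h3 : redV A π (FBar L N) F =
      HahnSeries.ofPowerSeries ℤ k (a.map π) / HahnSeries.ofPowerSeries ℤ k (b.map π) := by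
    rw [eq_div_iff (ofPowerSeries_ne_zero hb0), ← e3, ← e4, h1]
  rw [← h3]
  exact h2

/-- Reduction of an `ℓ`-integral rational number in a field of characteristic `ℓ`. -/
def redQ (k : Type*) [Field k] (r : ℚ) : k := (r.num : k) / (r.den : k)

/-- Coefficientwise reduction of a rational power series. -/
def redSeries (k : Type*) [Field k] (p : PowerSeries ℚ) : PowerSeries k :=
  PowerSeries.mk fun n => redQ k (PowerSeries.coeff n p)

@[simp] theorem coeff_redSeries (k : Type*) [Field k] (p : PowerSeries ℚ) (n : ℕ) :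
    PowerSeries.coeff n (redSeries k p) = redQ k (PowerSeries.coeff n p) :=
  PowerSeries.coeff_mk _ _

theorem redQ_intCast (k : Type*) [Field k] (m : ℤ) : redQ k (m : ℚ) = (m : k) := by
  simp [redQ]

include hπ in
/-- An `ℓ`-integral rational number lies in `A`, and `π` reduces it to `redQ`. -/
theorem exists_mem_of_integral (r : ℚ) (hr : ¬ ℓ ∣ r.den) :
    ∃ a : A, (a : L) = algebraMap ℚ L r ∧ π a = redQ k r := by
  have hden : π ((r.den : ℕ) : A) ≠ 0 := by
    rw [map_natCast, Ne, CharP.cast_eq_zero_iff k ℓ]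
    exact hr
  obtain ⟨u, hu⟩ := isUnit_of_map_ne_zero A π hπ hden
  refine ⟨(r.num : A) * ((u⁻¹ : Aˣ) : A), ?_, ?_⟩
  · have hdenL : ((r.den : ℕ) : L) ≠ 0 := by
      intro h0
      apply hden
      have : ((r.den : ℕ) : A) = 0 := Subtype.ext (by push_cast; exact h0)
      rw [this, map_zero]
    have huL : ((u : A) : L) = (r.den : L) := by rw [hu]; push_cast; rfl
    have hinv : (((u⁻¹ : Aˣ) : A) : L) = ((r.den : ℕ) : L)⁻¹ := by
      apply eq_inv_of_mul_eq_one_left
      rw [← huL, ← Subring.coe_mul, ← Units.val_mul, inv_mul_cancel]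
      rfl
    rw [eq_ratCast, Rat.cast_def, Subring.coe_mul, hinv, div_eq_mul_inv]
    push_cast
    rfl
  · rw [map_mul, map_intCast, redQ, div_eq_mul_inv]
    congr 1
    have : π ((u⁻¹ : Aˣ) : A) = (π (u : A))⁻¹ := by
      apply eq_inv_of_mul_eq_one_left
      rw [← map_mul, ← Units.val_mul, inv_mul_cancel, Units.val_one, map_one]
    rw [this, hu, map_natCast]

include hπ in
theorem exists_lift_of_integral (p : PowerSeries ℚ)
    (hp : ∀ n, ¬ ℓ ∣ (PowerSeries.coeff n p).den) :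
    ∃ a : PowerSeries A, a.map A.subtype = p.map (algebraMap ℚ L) ∧ a.map π = redSeries k p := by
  choose c hc1 hc2 using fun n => exists_mem_of_integral A π hπ ℓ (PowerSeries.coeff n p) (hp n)
  refine ⟨PowerSeries.mk c, ?_, ?_⟩
  · ext n
    rw [PowerSeries.coeff_map, PowerSeries.coeff_map, PowerSeries.coeff_mk]
    exact hc1 n
  · ext n
    rw [PowerSeries.coeff_map, PowerSeries.coeff_mk, coeff_redSeries]
    exact hc2 n

include hπ in
/-- **(R3), rational form.** -/
theorem redSeries_ratio_mem_fullC (hℓN : ¬ ℓ ∣ N) (hf : IsMF N wt f) (hg : IsMF N wt g)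
    (qf qg : PowerSeries ℚ) (hqf : qExpansion 1 f = qf.map (algebraMap ℚ ℂ))
    (hqg : qExpansion 1 g = qg.map (algebraMap ℚ ℂ))
    (hif : ∀ n, ¬ ℓ ∣ (PowerSeries.coeff n qf).den)
    (hig : ∀ n, ¬ ℓ ∣ (PowerSeries.coeff n qg).den) (hg0 : redSeries k qg ≠ 0) :
    HahnSeries.ofPowerSeries ℤ k (redSeries k qf) / HahnSeries.ofPowerSeries ℤ k (redSeries k qg) ∈
      modularFunctionFieldFullC k N := by
  obtain ⟨a, ha1, ha2⟩ := exists_lift_of_integral A π hπ ℓ qf hif
  obtain ⟨b, hb1, hb2⟩ := exists_lift_of_integral A π hπ ℓ qg hig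
  rw [← ha2, ← hb2]
  exact red_ratio_mem_fullC A π hπ ℓ hℓN hf hg qf qg hqf hqg a b ha1 hb1 (by rw [hb2]; exact hg0)

end Gauss

end Fermat.Agent.S16.RatioForms
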