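/-
P-S16, STEP 1 glue (helper19): the Prop `Three.RatioMemFk l N k` of `S16/Three/Main.lean`
from `RatioForms.redSeries_ratio_mem_fullC`, and an algebraically closed field `k` of
characteristic `l` (the residue field of a valuation subring of `Qbar` over `l`) for which it
holds.
-/
import Fermat.Agent.S16.RatioForms.Gauss
import Fermat.Agent.S16.Three.Main
import Fermat.Agent.Gateway.ES.ResidueField
import Fermat.Agent.Lib.FrobeniusExists

set_option autoImplicit false
set_option linter.unusedSectionVars false

noncomputable section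

open UpperHalfPlane ModularCurve CongruenceSubgroup

namespace Fermat.Agent.S16.RatioForms

theorem redSeries_mk (k : Type) [Field k] (r : ℕ → ℚ) :
    redSeries k (PowerSeries.mk r) = Three.redSeries k r := by
  ext n
  rw [coeff_redSeries, PowerSeries.coeff_mk, Three.redSeries, PowerSeries.coeff_mk, redQ]

theorem qExpansion_eq_map_mk {N : ℕ} {wt : ℤ} (f : ModularForm (Gamma0 N) wt) (r : ℕ → ℚ)
    (h : ∀ n, ModularFormClass.qCoeff f n = (r n : ℂ)) :
    qExpansion 1 (f : ℍ → ℂ) = (PowerSeries.mk r).map (algebraMap ℚ ℂ) := by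
  ext n
  rw [PowerSeries.coeff_map, PowerSeries.coeff_mk, eq_ratCast]
  exact h n

/-- `RatioMemFk` in the setting of `GoodRed.GaussBar`. -/
theorem ratioMemFk_of_valuation {L : Type*} [Field L] [Algebra ℚ L] (A : ValuationSubring L)
    {k : Type} [Field k] (π : A →+* k) (hπ : Function.Surjective π) [IsAlgClosed k] (l : ℕ)
    [Fact l.Prime] [CharP k l] {N : ℕ} [NeZero N] (hlN : ¬ l ∣ N) : Three.RatioMemFk l N k := by
  intro wt f g rf rg hf hg hfi hgi hg0
  rw [← redSeries_mk, ← redSeries_mk]
  refine redSeries_ratio_mem_fullC A π hπ l hlN (isMF_of_modularForm f) (isMF_of_modularForm g)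
    (PowerSeries.mk rf) (PowerSeries.mk rg) (qExpansion_eq_map_mk f rf hf)
    (qExpansion_eq_map_mk g rg hg) (fun n => by rw [PowerSeries.coeff_mk]; exact hfi n)
    (fun n => by rw [PowerSeries.coeff_mk]; exact hgi n) ?_
  intro h0
  have h1 := congrArg (PowerSeries.coeff 0) h0
  rw [coeff_redSeries, PowerSeries.coeff_mk, map_zero, redQ, div_eq_zero_iff] at h1
  rcases h1 with h1 | h1
  · exact hg0 ((CharP.intCast_eq_zero_iff k l _).mp h1)
  · exact hgi 0 ((CharP.cast_eq_zero_iff k l _).mp h1)

/-- `RatioMemFk` for the residue field of a valuation subring of `Qbar` over `l`. -/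
theorem ratioMemFk_residueField (l : ℕ) [Fact l.Prime] {N : ℕ} [NeZero N] (hlN : ¬ l ∣ N)
    (A : ValuationSubring (AlgebraicClosure ℚ)) (hA : A.LiesOverPrime l) :
    Three.RatioMemFk l N (IsLocalRing.ResidueField A) := by
  haveI : CharP (IsLocalRing.ResidueField A) l :=
    Fermat.Agent.Gateway.ES.charP_residueField_of_liesOverPrime A hA
  haveI : IsAlgClosed (IsLocalRing.ResidueField A) :=
    Fermat.Agent.Gateway.ES.isAlgClosed_residueField A
  exact ratioMemFk_of_valuation A (IsLocalRing.residue A) IsLocalRing.residue_surjective l hlN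

/-- There is an algebraically closed field of characteristic `l` for which `RatioMemFk` holds. -/
theorem exists_field_ratioMemFk (l : ℕ) [Fact l.Prime] {N : ℕ} [NeZero N] (hlN : ¬ l ∣ N) :
    ∃ (k : Type) (_ : Field k) (_ : IsAlgClosed k) (_ : CharP k l), Three.RatioMemFk l N k := by
  obtain ⟨A, hA⟩ := Fermat.Agent.Lib.exists_valuationSubring_liesOverPrime
    (L := AlgebraicClosure ℚ) l Fact.out
  exact ⟨IsLocalRing.ResidueField A, inferInstance,
    Fermat.Agent.Gateway.ES.isAlgClosed_residueField A,
    Fermat.Agent.Gateway.ES.charP_residueField_of_liesOverPrime A hA,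
    ratioMemFk_residueField l hlN A hA⟩

end Fermat.Agent.S16.RatioForms
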